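import Fermat.Agent.SchinzelTijdeman.Roots
import Fermat.Agent.Root.SummaryBakerLastHeight
import Fermat.Agent.BakerExplicit.Applications
import Mathlib.Analysis.SpecialFunctions.Complex.LogBounds

/-!
# The exponent in `B y ^ m = g (z)` at two integral roots

The logarithm of `(z - θ₀) / (z - θ₁)` is a form in fixed logarithms and one logarithm of height
`O (log |z| / m + 1)`, of size `O (1 / |z|)`. Baker's theorem linear in the last height bounds `m`.
-/

set_option autoImplicit false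
set_option linter.unusedSectionVars false

noncomputable section

namespace FA.SchinzelTijdeman

open Finset Polynomial NumberField Module
open scoped Real

variable {K : Type*} [Field K] [NumberField K]

/-- The logarithm of a conjugate is at most the height. -/
theorem abs_log_norm_le (σ : K →+* ℂ) {x : K} (hx : x ≠ 0) :
    |Real.log ‖σ x‖| ≤ Height.logHeight₁ x := by
  obtain ⟨_, _, _, _, h1⟩ := BakerLastHeight.exists_den_le x
  obtain ⟨_, _, _, _, h2⟩ := BakerLastHeight.exists_den_le x⁻¹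
  have hpos : 0 < ‖σ x‖ := norm_pos_iff.2 ((map_ne_zero σ).2 hx)
  have h3 := h2 σ
  rw [map_inv₀, norm_inv, Height.mulHeight₁_inv] at h3
  have h4 := Real.log_le_log (inv_pos.2 hpos) h3
  rw [Real.log_inv] at h4
  rw [Height.logHeight₁_eq_log_mulHeight₁, abs_le]
  exact ⟨by linarith, Real.log_le_log hpos (h1 σ)⟩

/-- The principal logarithm of a conjugate. -/
theorem norm_log_le (σ : K →+* ℂ) {x : K} (hx : x ≠ 0) :
    ‖Complex.log (σ x)‖ ≤ Height.logHeight₁ x + 4 := by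
  refine (Complex.norm_le_abs_re_add_abs_im _).trans ?_
  rw [Complex.log_re, Complex.log_im]
  exact add_le_add (abs_log_norm_le σ hx) ((Complex.abs_arg_le_pi _).trans Real.pi_lt_four.le)

/-- The height of `z - θ`. -/
theorem exists_height_sub_le (θ : 𝓞 K) :
    ∃ c : ℕ, ∀ z : ℤ, z ≠ 0 →
      Height.logHeight₁ ((z : K) - θ) ≤ (finrank ℚ K : ℝ) * (Real.log |(z : ℝ)| + c) := by
  refine ⟨⌈∑ σ : K →+* ℂ, ‖σ (θ : K)‖⌉₊, fun z hz => ?_⟩
  set c := ⌈∑ σ : K →+* ℂ, ‖σ (θ : K)‖⌉₊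
  have hz1 : (1 : ℝ) ≤ |(z : ℝ)| := by exact_mod_cast Int.one_le_abs hz
  have h := FA.AbelianHeight.mulHeight_mul_absNorm (K := K) one_ne_zero
    (x := (z : K) - θ) (a := (z : 𝓞 K) - θ) (by simp)
  rw [show Ideal.span {(z : 𝓞 K) - θ, ((1 : ℕ) : 𝓞 K)} = ⊤ from
    (Ideal.eq_top_iff_one _).2 (Ideal.subset_span (by simp)), Ideal.absNorm_top, Nat.cast_one,
    mul_one] at h
  have hle : ∀ σ : K →+* ℂ,
      max ‖σ (((z : 𝓞 K) - θ : 𝓞 K) : K)‖ ((1 : ℕ) : ℝ) ≤ |(z : ℝ)| * (1 + c) := fun σ => by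
    have h1 : ‖σ (θ : K)‖ ≤ c :=
      (single_le_sum (f := fun τ : K →+* ℂ => ‖τ (θ : K)‖) (fun τ _ => norm_nonneg _)
        (mem_univ σ)).trans (Nat.le_ceil _)
    have h2 : (0 : ℝ) ≤ c := Nat.cast_nonneg _
    refine max_le ?_ (by push_cast; nlinarith)
    simp only [map_sub, map_intCast]
    refine (norm_sub_le _ _).trans ?_
    rw [Complex.norm_intCast]
    nlinarith
  have h3 : Height.mulHeight₁ ((z : K) - θ) ≤ (|(z : ℝ)| * (1 + c)) ^ finrank ℚ K := by
    rw [h, ← Embeddings.card K ℂ, ← card_univ, ← prod_const]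
    exact prod_le_prod (fun _ _ => le_max_of_le_left (norm_nonneg _)) fun σ _ => by
      simpa using hle σ
  rw [Height.logHeight₁_eq_log_mulHeight₁]
  refine (Real.log_le_log (Height.mulHeight₁_pos _) h3).trans ?_
  rw [Real.log_pow, Real.log_mul (by linarith) (by positivity)]
  have h4 := Real.log_le_sub_one_of_pos (show (0 : ℝ) < 1 + c by positivity)
  exact mul_le_mul_of_nonneg_left (by linarith) (Nat.cast_nonneg _)

/-- The two inequalities between `m` and `X = log |z|`. -/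
theorem exponent_le {m : ℕ} {X a N c P : ℝ} (hX : 0 ≤ X) (ha : 0 ≤ a) (hN : 0 ≤ N) (hc : 0 ≤ c)
    (hP : 0 ≤ P) (h1 : (m : ℝ) / 2 ≤ a + N * X) (h2 : X ≤ c + (X / m + 1) * P) :
    (m : ℝ) ≤ 2 * a + 4 * N * c + (4 * N + 2) * P := by
  have h5 : 0 ≤ N * P := mul_nonneg hN hP
  have h6 : 0 ≤ N * c := mul_nonneg hN hc
  by_contra hgt
  push Not at hgt
  have hm : (0 : ℝ) < m := by linarith
  have h3 : X / m * P ≤ X / 2 := by
    rw [div_mul_eq_mul_div, div_le_div_iff₀ hm two_pos]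
    nlinarith
  have h4 : N * X ≤ N * (2 * c + 2 * P) := mul_le_mul_of_nonneg_left (by linarith) hN
  linarith

/-- The size of a value. -/
theorem abs_eval_le (g : ℤ[X]) (z : ℤ) :
    |((g.eval z : ℤ) : ℝ)| ≤ (∑ i ∈ range (g.natDegree + 1), |(g.coeff i : ℝ)|) *
      Real.exp ((g.natDegree : ℝ) * Real.log |(z : ℝ)|) := by
  have hM : ∀ i ≤ g.natDegree,
      |(z : ℝ)| ^ i ≤ Real.exp ((g.natDegree : ℝ) * Real.log |(z : ℝ)|) := by
    intro i hi
    rcases eq_or_ne z 0 with rfl | hz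
    · rcases i with _ | i <;> simp
    have hz1 : (1 : ℝ) ≤ |(z : ℝ)| := by exact_mod_cast Int.one_le_abs hz
    rw [Real.exp_nat_mul, Real.exp_log (by linarith)]
    exact pow_le_pow_right₀ hz1 hi
  rw [eval_eq_sum_range, sum_mul]
  push_cast
  refine (abs_sum_le_sum_abs _ _).trans (sum_le_sum fun i hi => ?_)
  rw [abs_mul, abs_pow]
  exact mul_le_mul_of_nonneg_left (hM i (Nat.lt_succ_iff.1 (mem_range.1 hi))) (abs_nonneg _)

/-- The integer multiple of `2 π i` in a sum of principal logarithms. -/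
theorem exists_period {s m E : ℕ} (v : Fin s → ℂ) (v₀ u : ℂ) {r : Fin s → ℕ} (hr : ∀ i, r i ≤ m)
    (hv : ∀ i, v i ≠ 0) (hv₀ : v₀ ≠ 0) (hu : u ≠ 0) (h : u ^ E = (∏ i, v i ^ r i) * v₀ ^ m) :
    ∃ k : ℤ, k.natAbs ≤ s * m + m + E ∧
      ∑ i, (r i : ℂ) * Complex.log (v i) + (m : ℂ) * Complex.log v₀ - (E : ℂ) * Complex.log u =
        (k : ℂ) * (2 * π * Complex.I) := by
  obtain ⟨k, hk⟩ := Complex.exp_eq_one_iff.1 (show Complex.exp (∑ i, (r i : ℂ) * Complex.log (v i) +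
      (m : ℂ) * Complex.log v₀ - (E : ℂ) * Complex.log u) = 1 by
    simp only [Complex.exp_sub, Complex.exp_add, Complex.exp_sum, Complex.exp_nat_mul,
      Complex.exp_log hv₀, Complex.exp_log hu, Complex.exp_log (hv _), ← h]
    exact div_self (pow_ne_zero _ hu))
  refine ⟨k, ?_, hk⟩
  have him := congrArg Complex.im hk
  simp [Complex.log_im] at him
  have ha := Complex.abs_arg_le_pi
  have hb : |(k : ℝ) * (2 * π)| ≤ ((s * m + m + E : ℕ) : ℝ) * π := by
    rw [← him]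
    refine (abs_sub _ _).trans ((add_le_add (abs_add_le _ _) le_rfl).trans ?_)
    push_cast
    rw [add_mul, add_mul]
    refine add_le_add (add_le_add ((abs_sum_le_sum_abs _ _).trans
      ((sum_le_card_nsmul _ _ ((m : ℝ) * π) fun i _ => ?_).trans ?_)) ?_) ?_
    · rw [abs_mul, Nat.abs_cast]
      exact mul_le_mul (by exact_mod_cast hr i) (ha _) (abs_nonneg _) (Nat.cast_nonneg _)
    · rw [card_univ, Fintype.card_fin, nsmul_eq_mul, mul_assoc]
    · rw [abs_mul, Nat.abs_cast]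
      exact mul_le_mul_of_nonneg_left (ha _) (Nat.cast_nonneg _)
    · rw [abs_mul, Nat.abs_cast]
      exact mul_le_mul_of_nonneg_left (ha _) (Nat.cast_nonneg _)
  rw [abs_mul, abs_of_pos Real.two_pi_pos, ← Int.cast_abs, ← Int.natCast_natAbs,
    Int.cast_natCast] at hb
  have h3 : (k.natAbs : ℝ) ≤ ((s * m + m + E : ℕ) : ℝ) :=
    le_of_mul_le_mul_right (le_trans (mul_le_mul_of_nonneg_left
      (by linarith [Real.pi_pos]) (Nat.cast_nonneg _)) hb) Real.pi_pos
  exact_mod_cast h3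

/-- The height of the `m`-th root. -/
theorem mul_height_root_le {s m E : ℕ} (G : Fin s → Kˣ) (η : Kˣ) {a b : K} {r : Fin s → ℕ}
    (hr : ∀ i, r i ≤ m) (h : (a / b) ^ E = (∏ i, (G i : K) ^ r i) * (η : K) ^ m) {t : ℝ}
    (hG : ∀ i, Height.logHeight₁ (G i : K) ≤ t) :
    (m : ℝ) * Height.logHeight₁ (η : K) ≤
      (E : ℝ) * (Height.logHeight₁ a + Height.logHeight₁ b) + (m : ℝ) * s * t := by
  set Q := ∏ i, (G i : K) ^ r i with hQ
  have hQ0 : Q ≠ 0 := prod_ne_zero_iff.2 fun i _ => pow_ne_zero _ (Units.ne_zero _)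
  have h1 : (η : K) ^ m = (a * b⁻¹) ^ E * Q⁻¹ := by
    rw [← div_eq_mul_inv, ← div_eq_mul_inv, h]; field_simp
  rw [← Height.logHeight₁_pow, h1]
  refine (Height.logHeight₁_mul_le _ _).trans (add_le_add ?_ ?_)
  · rw [Height.logHeight₁_pow]
    refine mul_le_mul_of_nonneg_left ?_ (Nat.cast_nonneg _)
    simpa [Height.logHeight₁_inv] using Height.logHeight₁_mul_le a b⁻¹
  · rw [Height.logHeight₁_inv, hQ]
    refine (Height.logHeight₁_prod_le univ _).trans ((sum_le_card_nsmul _ _ ((m : ℝ) * t)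
      fun i _ => ?_).trans (le_of_eq ?_))
    · rw [Height.logHeight₁_pow]
      refine mul_le_mul (by exact_mod_cast hr i) (hG i) ?_ (Nat.cast_nonneg _)
      exact (abs_nonneg _).trans (abs_log_norm_le
        (Classical.arbitrary (K →+* ℂ)) (Units.ne_zero (G i)))
    · rw [card_univ, Fintype.card_fin, nsmul_eq_mul]
      ring

/-- **Baker's theorem applied to the quotient.** -/
theorem form_le (ψ : K →+* ℂ) {s m E : ℕ} (hm : 0 < m) (hE : 0 < E) (G : Fin s → Kˣ) (η : Kˣ)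
    {r : Fin s → ℕ} (hr : ∀ i, r i < m) {x : K}
    (hη : x ^ E = (∏ i, (G i : K) ^ r i) * (η : K) ^ m) {δ : ℂ} (hw : ψ x = 1 + δ)
    (hδ2 : ‖δ‖ ≤ 1 / 2) (hδ0 : δ ≠ 0) (hw0 : (1 : ℂ) + δ ≠ 0) {h R : ℕ} (h8 : 8 ≤ h)
    (hR : 1 ≤ R) (hG : ∀ i, Height.logHeight₁ (G i : K) + 4 ≤ (h : ℝ))
    (hη1 : Height.logHeight₁ (η : K) + 4 ≤ ((h * R : ℕ) : ℝ)) :
    1 / (2 : ℝ) ^ (R * (BakerLastHeight.lastHeightConst (s + 1) (finrank ℚ K) *
        (h + (Nat.log 2 m + 1 + (s + 1 + E)) + 1)) ^ BakerLastHeight.lastHeightKappa (s + 1)) ≤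
      (E : ℝ) * (3 / 2 * ‖δ‖) := by
  obtain ⟨k, hk, hsum⟩ := exists_period (fun i => ψ (G i : K)) (ψ (η : K)) (1 + δ)
    (fun i => (hr i).le) (fun i => (map_ne_zero ψ).2 (Units.ne_zero _))
    ((map_ne_zero ψ).2 (Units.ne_zero _)) hw0 (by
      rw [← hw, ← map_pow, hη, map_mul, map_prod]; simp only [map_pow])
  set l : Fin (s + 1) → ℂ := Fin.cons (2 * π * Complex.I) fun i => Complex.log (ψ (G i : K))
  set b : Fin (s + 1) → ℤ := Fin.cons (-k) fun i => (r i : ℤ)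
  have hform : ∑ i, (b i : ℂ) * l i + ((m : ℤ) : ℂ) * Complex.log (ψ (η : K)) =
      (E : ℂ) * Complex.log (1 + δ) := by
    simp only [l, b, Fin.sum_univ_succ, Fin.cons_zero, Fin.cons_succ]
    push_cast
    linear_combination hsum
  have hLne : Complex.log (1 + δ) ≠ 0 := fun h => hδ0 (by
    have := Complex.exp_log hw0
    rw [h, Complex.exp_zero] at this
    simpa using this)
  have hcoef : ∀ a : ℕ, a ≤ (s + 1 + E) * m → a ≤ 2 ^ (Nat.log 2 m + 1 + (s + 1 + E)) := by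
    intro a ha
    refine ha.trans ?_
    rw [mul_comm, pow_add]
    exact Nat.mul_le_mul (Nat.lt_pow_succ_log_self one_lt_two m).le Nat.lt_two_pow_self.le
  have h8' : (8 : ℝ) ≤ h := by exact_mod_cast h8
  have hexp : ∀ i, Complex.exp (l i) = ψ ((Fin.cons 1 fun i => (G i : K) : Fin (s + 1) → K) i) :=
    Fin.cases (by simp [l, Complex.exp_two_pi_mul_I]) fun i => by
      simp only [l, Fin.cons_succ]; exact Complex.exp_log ((map_ne_zero ψ).2 (Units.ne_zero _))
  have hl : ∀ i, ‖l i‖ ≤ (h : ℝ) := Fin.cases (by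
      simp only [l, Fin.cons_zero, norm_mul, Complex.norm_real, Complex.norm_I,
        RCLike.norm_ofNat, Real.norm_eq_abs, abs_of_pos Real.pi_pos, mul_one]
      linarith [Real.pi_lt_four]) fun i => by
    simp only [l, Fin.cons_succ]
    exact (norm_log_le ψ (Units.ne_zero (G i))).trans (hG i)
  have hb : ∀ i, (b i).natAbs ≤ 2 ^ (Nat.log 2 m + 1 + (s + 1 + E)) := Fin.cases (by
      simp only [b, Fin.cons_zero, Int.natAbs_neg]
      refine hcoef _ (hk.trans ?_)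
      rw [add_mul, add_mul, one_mul]
      exact Nat.add_le_add_left (Nat.le_mul_of_pos_right _ hm) _) fun i => by
    simp only [b, Fin.cons_succ, Int.natAbs_natCast]
    exact hcoef _ ((hr i).le.trans (Nat.le_mul_of_pos_left _ (by omega)))
  have key := BakerLastHeight.baker_last_height (le_refl (finrank ℚ K)) ψ
    (h := h) (m := Nat.log 2 m + 1 + (s + 1 + E)) hR
    (α := Fin.cons 1 fun i => (G i : K)) (α₀ := (η : K))
    (Fin.cases (by simp) fun i => by simp only [Fin.cons_succ]; linarith [hG i])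
    (by linarith) hexp (Complex.exp_log ((map_ne_zero ψ).2 (Units.ne_zero _))) hl
    ((norm_log_le ψ (Units.ne_zero η)).trans hη1) hb (b₀ := (m : ℤ))
    (by rw [Int.natAbs_natCast]; exact hcoef _ (Nat.le_mul_of_pos_left _ (by omega)))
    (by omega) (by rw [hform]; exact mul_ne_zero (Nat.cast_ne_zero.2 hE.ne') hLne)
  rw [hform, norm_mul, Complex.norm_natCast] at key
  exact key.trans (mul_le_mul_of_nonneg_left (Complex.norm_log_one_add_half_le_self hδ2)
    (Nat.cast_nonneg _))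

set_option maxHeartbeats 800000 in
/-- **The exponent is bounded.** -/
theorem exponent_bound (ψ : K →+* ℂ) {g : ℤ[X]} (hg : g ≠ 0) {θ₀ θ₁ : 𝓞 K} (hne : θ₀ ≠ θ₁)
    (h₀ : aeval θ₀ g = 0) (h₁ : aeval θ₁ g = 0) {B : ℤ} (hB : B ≠ 0) :
    ∃ M : ℕ, ∀ (z y : ℤ) (m : ℕ), 2 ≤ |y| → B * y ^ m = g.eval z → m ≤ M := by
  obtain ⟨E, s, G, hE, hsol⟩ := exists_quotient_generators hg h₀ h₁ hB
  obtain ⟨c₀, hc₀⟩ := exists_height_sub_le θ₀
  obtain ⟨c₁, hc₁⟩ := exists_height_sub_le θ₁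
  set d := finrank ℚ K
  set t := ⌈∑ i, |Height.logHeight₁ (G i : K)|⌉₊ with ht
  have hG : ∀ i, Height.logHeight₁ (G i : K) ≤ t := fun i =>
    (le_abs_self _).trans ((single_le_sum (f := fun j => |Height.logHeight₁ (G j : K)|)
      (fun j _ => abs_nonneg _) (mem_univ i)).trans (Nat.le_ceil _))
  set h := E * (d * (2 + c₀ + c₁)) + s * t + t + 8 with hh
  obtain ⟨C, hC⟩ : ∃ C, BakerLastHeight.lastHeightConst (s + 1) d = C := ⟨_, rfl⟩
  obtain ⟨κ, hκdef⟩ : ∃ κ, BakerLastHeight.lastHeightKappa (s + 1) = κ := ⟨_, rfl⟩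
  have hκ : 1 ≤ κ := by
    have := BakerLastHeight.coreKappa_facts (s + 1 + 1)
    rw [← hκdef, BakerLastHeight.lastHeightKappa]
    omega
  set A := ⌈∑ i ∈ range (g.natDegree + 1), |(g.coeff i : ℝ)|⌉₊
  set D₀ := ‖ψ (θ₀ : K) - ψ (θ₁ : K)‖ with hD₀
  set cX := ⌈4 * D₀ + 2 * ‖ψ (θ₁ : K)‖ + 3 * E * D₀ + 2⌉₊ with hcX
  obtain ⟨D, hD⟩ : ∃ D, D = (C * (h + s + E + 3)) ^ κ := ⟨_, rfl⟩
  set N := g.natDegree
  refine ⟨2 * (2 * A + 4 * N * cX) + 2 * (2 * κ) ^ (2 * κ) * ((4 * N + 2) * D) ^ 2,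
    fun z y m hy heq => BakerExplicit.le_of_le_add_mul_log_pow hκ ?_⟩
  rcases Nat.eq_zero_or_pos m with hm | hm
  · omega
  have hy0 : y ≠ 0 := fun h => by simp [h] at hy
  obtain ⟨hz₀, hz₁, r, η, hr, hη⟩ := hsol z y m hm hy0 heq
  set X := Real.log |(z : ℝ)| with hX
  have hX0 : 0 ≤ X := by
    rcases eq_or_ne z 0 with rfl | hz
    · simp [hX]
    · exact Real.log_nonneg (by exact_mod_cast Int.one_le_abs hz)
  set R := ⌊X / m⌋₊ + 1 with hR
  obtain ⟨P, hP⟩ : ∃ P, P = (C * (h + (Nat.log 2 m + 1 + (s + 1 + E)) + 1)) ^ κ := ⟨_, rfl⟩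
  have hPD : P ≤ D * (Nat.log 2 m + 1) ^ κ := by
    rw [hP, hD, ← mul_pow, mul_assoc]
    refine Nat.pow_le_pow_left (Nat.mul_le_mul_left _ ?_) _
    have : 1 ≤ Nat.log 2 m + 1 := by omega
    nlinarith
  have hvalue : (m : ℝ) / 2 ≤ A + N * X := by
    have h1 : (2 : ℝ) ^ m ≤ |((g.eval z : ℤ) : ℝ)| := by
      rw [← heq]
      push_cast
      rw [abs_mul, abs_pow]
      refine le_trans ?_ (le_mul_of_one_le_left (by positivity)
        (by exact_mod_cast Int.one_le_abs hB))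
      exact pow_le_pow_left₀ (by norm_num) (by exact_mod_cast hy) m
    have h2 : (2 : ℝ) ^ m ≤ Real.exp ((A : ℝ) + N * X) := by
      refine h1.trans ((abs_eval_le g z).trans ?_)
      rw [Real.exp_add]
      exact mul_le_mul_of_nonneg_right ((Nat.le_ceil _).trans
        (le_trans (by linarith) (Real.add_one_le_exp _))) (Real.exp_pos _).le
    have h3 := Real.log_le_log (by positivity) h2
    rw [Real.log_exp, Real.log_pow] at h3
    have h4 := Real.log_two_gt_d9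
    have h5 : (m : ℝ) * (1 / 2) ≤ (m : ℝ) * Real.log 2 :=
      mul_le_mul_of_nonneg_left (by linarith) (Nat.cast_nonneg _)
    linarith
  have hXle : X ≤ cX + (X / m + 1) * P := by
    have hnn : 0 ≤ (X / m + 1) * (P : ℝ) := by positivity
    have hD0 : 0 < D₀ := norm_pos_iff.2 (sub_ne_zero.2 fun h =>
      hne (RingOfIntegers.coe_injective (ψ.injective h)))
    have hcX' : 4 * D₀ + 2 * ‖ψ (θ₁ : K)‖ + 3 * E * D₀ + 2 ≤ cX := Nat.le_ceil _
    have hcX0 : (0 : ℝ) ≤ E * D₀ := by positivity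
    rcases le_or_gt |(z : ℝ)| (4 * D₀ + 2 * ‖ψ (θ₁ : K)‖ + 2) with hz | hz
    · have : X ≤ |(z : ℝ)| := Real.log_le_self (abs_nonneg _)
      linarith
    have hzn : z ≠ 0 := fun h => by
      rw [h, Int.cast_zero, abs_zero] at hz
      linarith [norm_nonneg (ψ (θ₁ : K))]
    have hden : |(z : ℝ)| / 2 ≤ ‖ψ ((z : K) - θ₁)‖ := by
      rw [map_sub, map_intCast]
      refine le_trans ?_ (norm_sub_norm_le _ _)
      rw [Complex.norm_intCast]
      linarith
    have hθn := norm_nonneg (ψ (θ₁ : K))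
    have hzpos : 0 < |(z : ℝ)| := by linarith
    set δ := (ψ (θ₁ : K) - ψ (θ₀ : K)) / ψ ((z : K) - θ₁) with hδ
    have hδle : ‖δ‖ ≤ 2 * D₀ / |(z : ℝ)| := by
      rw [hδ, norm_div, norm_sub_rev, ← hD₀]
      refine (div_le_div_of_nonneg_left hD0.le (by linarith) hden).trans_eq ?_
      field_simp
    have hδ2 : ‖δ‖ ≤ 1 / 2 := hδle.trans (by
      rw [div_le_iff₀ (by linarith)]; linarith)
    have hδ0 : δ ≠ 0 := div_ne_zero (sub_ne_zero.2 fun h =>
      hne (RingOfIntegers.coe_injective (ψ.injective h.symm))) ((map_ne_zero ψ).2 hz₁)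
    have hw : ψ (((z : K) - θ₀) / ((z : K) - θ₁)) = 1 + δ := by
      rw [hδ, map_div₀, eq_comm, one_add_div ((map_ne_zero ψ).2 hz₁)]
      congr 1
      simp only [map_sub, map_intCast]
      ring
    have hw0 : (1 : ℂ) + δ ≠ 0 := hw ▸ (map_ne_zero ψ).2 (div_ne_zero hz₀ hz₁)
    have hlt : (X / m : ℝ) ≤ R := by
      rw [hR]; push_cast; exact (Nat.lt_floor_add_one _).le
    have hR1 : (1 : ℝ) ≤ R := by rw [hR]; push_cast; linarith [Nat.cast_nonneg (α := ℝ) ⌊X / m⌋₊]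
    have hm1 : (1 : ℝ) ≤ m := by exact_mod_cast hm
    have hη1 : Height.logHeight₁ (η : K) + 4 ≤ ((h * R : ℕ) : ℝ) := by
      have h1 := mul_height_root_le G η (fun i => (hr i).le) hη hG
      have h2 : (E : ℝ) * (Height.logHeight₁ ((z : K) - θ₀) + Height.logHeight₁ ((z : K) - θ₁)) ≤
          (E : ℝ) * (d * (2 * X + c₀ + c₁)) := by
        refine mul_le_mul_of_nonneg_left ?_ (Nat.cast_nonneg _)
        linarith [hc₀ z hzn, hc₁ z hzn]
      have hXR : X ≤ (m : ℝ) * R := by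
        rw [div_le_iff₀ (by linarith)] at hlt; linarith
      have h3 : (2 * X + c₀ + c₁ : ℝ) ≤ (m : ℝ) * R * (2 + c₀ + c₁) := by
        have : (1 : ℝ) ≤ (m : ℝ) * R := one_le_mul_of_one_le_of_one_le hm1 hR1
        nlinarith [Nat.cast_nonneg (α := ℝ) c₀, Nat.cast_nonneg (α := ℝ) c₁]
      have h4 : (m : ℝ) * Height.logHeight₁ (η : K) ≤
          (m : ℝ) * (R * ((E * (d * (2 + c₀ + c₁)) + s * t : ℕ) : ℝ)) := by
        refine (h1.trans (add_le_add (h2.trans (mul_le_mul_of_nonneg_left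
          (mul_le_mul_of_nonneg_left h3 (Nat.cast_nonneg _)) (Nat.cast_nonneg _))) le_rfl)).trans ?_
        have h5 : (m : ℝ) * s * t * 1 ≤ (m : ℝ) * s * t * R :=
          mul_le_mul_of_nonneg_left hR1 (by positivity)
        push_cast
        nlinarith
      have h6 := le_of_mul_le_mul_left h4 (by linarith)
      have h7 : (4 : ℝ) * 1 ≤ ((t + 8 : ℕ) : ℝ) * R :=
        mul_le_mul (by push_cast; linarith [Nat.cast_nonneg (α := ℝ) t]) hR1 zero_le_one
          (Nat.cast_nonneg _)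
      rw [hh]
      push_cast at h6 h7 ⊢
      nlinarith
    have hht : t + 8 ≤ h := by omega
    have h0 := form_le ψ hm hE G η hr hη hw hδ2 hδ0 hw0 (h := h) (R := R) (by omega) (by omega)
      (fun i => (add_le_add (hG i) le_rfl).trans (by
        exact_mod_cast (show t + 4 ≤ h by omega))) hη1
    rw [hC, hκdef, ← hP] at h0
    have h1 : 1 / (2 : ℝ) ^ (R * P) ≤ (E : ℝ) * (3 * D₀ / |(z : ℝ)|) := by
      refine h0.trans (mul_le_mul_of_nonneg_left ?_ (Nat.cast_nonneg _))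
      rw [show 3 * D₀ / |(z : ℝ)| = 3 / 2 * (2 * D₀ / |(z : ℝ)|) by ring]
      linarith
    have h2 : |(z : ℝ)| ≤ 3 * E * D₀ * (2 : ℝ) ^ (R * P) := by
      rw [← mul_div_assoc, div_le_div_iff₀ (by positivity) (by linarith)] at h1
      linarith
    have h3 := Real.log_le_log (by linarith) h2
    rw [Real.log_mul (by positivity) (by positivity), Real.log_pow] at h3
    have h4 : Real.log (3 * E * D₀) ≤ cX := by
      refine (Real.log_le_self (by positivity)).trans ?_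
      linarith [norm_nonneg (ψ (θ₁ : K))]
    have h5 : ((R * P : ℕ) : ℝ) * Real.log 2 ≤ (X / m + 1) * P := by
      refine (mul_le_of_le_one_right (Nat.cast_nonneg _)
        (by linarith [Real.log_two_lt_d9])).trans ?_
      rw [Nat.cast_mul, hR]
      refine mul_le_mul_of_nonneg_right ?_ (Nat.cast_nonneg _)
      push_cast
      linarith [Nat.floor_le (show 0 ≤ X / m by positivity)]
    linarith
  have hfinal := exponent_le hX0 (Nat.cast_nonneg _) (Nat.cast_nonneg _) (Nat.cast_nonneg _)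
    (Nat.cast_nonneg _) hvalue hXle
  have h9 : ((4 * (N : ℝ) + 2) * P) ≤ (4 * (N : ℝ) + 2) * ((D * (Nat.log 2 m + 1) ^ κ : ℕ) : ℝ) :=
    mul_le_mul_of_nonneg_left (by exact_mod_cast hPD) (by positivity)
  have h10 : (m : ℝ) ≤
      ((2 * A + 4 * N * cX + (4 * N + 2) * D * (Nat.log 2 m + 1) ^ κ : ℕ) : ℝ) := by
    push_cast at h9 ⊢
    linarith
  exact_mod_cast h10

end FA.SchinzelTijdeman

end
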