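import Fermat.Agent.SchinzelTijdeman.Exponent
import Fermat.Agent.Root.SummarySuperellipticEffective

/-!
# The theorem of Schinzel and Tijdeman

Any polynomial with two different complex roots: the monic polynomial of `a x` has two different
integral roots. With Baker's theorem on superelliptic equations the solutions are finitely many.
-/

set_option autoImplicit false

noncomputable section

namespace FA.SchinzelTijdeman

open Polynomial NumberField

/-- **Schinzel–Tijdeman**: the exponent is bounded. -/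
theorem exponent_bounded {f : ℤ[X]} {α β : ℂ} (hne : α ≠ β) (hα : aeval α f = 0)
    (hβ : aeval β f = 0) {b : ℤ} (hb : b ≠ 0) :
    ∃ M : ℕ, ∀ (x y : ℤ) (m : ℕ), 2 ≤ |y| → b * y ^ m = f.eval x → m ≤ M := by
  rcases eq_or_ne f 0 with rfl | hf
  · refine ⟨0, fun x y m hy heq => absurd heq ?_⟩
    rw [eval_zero]
    exact mul_ne_zero hb (pow_ne_zero m fun h => by simp [h] at hy)
  have hn0 : 0 < f.natDegree := natDegree_pos_of_aeval_root hf hα fun z h => by
    simpa using h
  set a := f.leadingCoeff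
  have ha : a ≠ 0 := leadingCoeff_ne_zero.2 hf
  set g := f.integralNormalization with hgdef
  have hg : g.Monic := monic_integralNormalization hf
  have hroot : ∀ w : ℂ, aeval w f = 0 → aeval ((a : ℂ) * w) g = 0 := fun w hw => by
    have h := integralNormalization_eval₂_leadingCoeff_mul hn0 (algebraMap ℤ ℂ) w
    rwa [eq_intCast, ← aeval_def, ← aeval_def, hw, mul_zero] at h
  have hint : ∀ w : ℂ, aeval w f = 0 → IsIntegral ℤ ((a : ℂ) * w) := fun w hw =>
    ⟨g, hg, hroot w hw⟩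
  set L := IntermediateField.adjoin ℚ ({(a : ℂ) * α, (a : ℂ) * β} : Set ℂ)
  have : FiniteDimensional ℚ L := IntermediateField.finiteDimensional_adjoin fun w hw => by
    rcases hw with rfl | rfl
    · exact (hint α hα).tower_top
    · exact (hint β hβ).tower_top
  have : NumberField L := ⟨⟩
  have hmem : ∀ w : ℂ, w ∈ ({(a : ℂ) * α, (a : ℂ) * β} : Set ℂ) → IsIntegral ℤ w →
      aeval w g = 0 → ∃ θ : 𝓞 L, ((θ : L) : ℂ) = w ∧ aeval θ g = 0 := fun w hw hi hwg => by
    have hiL : IsIntegral ℤ (⟨w, IntermediateField.mem_adjoin_of_mem ℚ hw⟩ : L) :=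
      (isIntegral_algebraMap_iff (algebraMap L ℂ).injective).1 hi
    set θ : 𝓞 L := ⟨_, hiL⟩
    set φ : 𝓞 L →+* ℂ := (algebraMap L ℂ).comp (algebraMap (𝓞 L) L)
    have hφ : Function.Injective φ :=
      (algebraMap L ℂ).injective.comp RingOfIntegers.coe_injective
    refine ⟨θ, rfl, hφ ?_⟩
    rw [map_zero, show φ (aeval θ g) = φ.toIntAlgHom (aeval θ g) from rfl, ← aeval_algHom_apply]
    exact hwg
  obtain ⟨θ₀, hθ₀, hr₀⟩ := hmem _ (Or.inl rfl) (hint α hα) (hroot α hα)
  obtain ⟨θ₁, hθ₁, hr₁⟩ := hmem _ (Or.inr rfl) (hint β hβ) (hroot β hβ)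
  obtain ⟨M, hM⟩ := exponent_bound (algebraMap L ℂ) hg.ne_zero (fun h => hne
    (mul_left_cancel₀ (Int.cast_ne_zero.2 ha) (hθ₀.symm.trans ((by rw [h] :
      ((θ₀ : L) : ℂ) = ((θ₁ : L) : ℂ)).trans hθ₁)))) hr₀ hr₁
    (mul_ne_zero (pow_ne_zero (f.natDegree - 1) ha) hb)
  refine ⟨M, fun x y m hy heq => hM (a * x) y m hy ?_⟩
  have h := integralNormalization_eval₂_leadingCoeff_mul hn0 (RingHom.id ℤ) x
  rw [RingHom.id_apply, eval₂_id, eval₂_id] at h
  rw [hgdef, h, mul_assoc, heq]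

/-- **Three simple roots: finitely many solutions with `m ≥ 2` and `|y| ≥ 2`, all exponents at
once.** -/
theorem solutions_finite {f : ℤ[X]} {α : Fin 3 → ℂ} (hinj : Function.Injective α)
    (hα : ∀ i, aeval (α i) f = 0) (hα' : ∀ i, aeval (α i) f.derivative ≠ 0) {b : ℤ}
    (hb : b ≠ 0) :
    {p : ℤ × ℤ × ℕ | 2 ≤ |p.2.1| ∧ 2 ≤ p.2.2 ∧ b * p.2.1 ^ p.2.2 = f.eval p.1}.Finite := by
  obtain ⟨M, hM⟩ := exponent_bounded (hinj.ne (show (0 : Fin 3) ≠ 1 by decide)) (hα 0) (hα 1) hb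
  set k := (f.support.sup fun i => (f.coeff i).natAbs) + b.natAbs
  have hk : ∀ i, (f.coeff i).natAbs ≤ 2 ^ k := fun i => by
    refine le_trans ?_ Nat.lt_two_pow_self.le
    by_cases hi : i ∈ f.support
    · exact (Finset.le_sup (f := fun i => (f.coeff i).natAbs) hi).trans (Nat.le_add_right _ _)
    · simp [notMem_support_iff.1 hi]
  have hbk : b.natAbs ≤ 2 ^ k := (Nat.le_add_left _ _).trans Nat.lt_two_pow_self.le
  set V := BakerExplicit.Superelliptic.squareBound f.natDegree k +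
    ∑ m ∈ Finset.range (M + 1), BakerExplicit.Superelliptic.powerBound f.natDegree k m
  refine Set.Finite.subset ((Set.finite_Icc (-(2 ^ V : ℤ)) (2 ^ V)).prod
    ((Set.finite_Icc (-(2 ^ V : ℤ)) (2 ^ V)).prod (Set.finite_Icc 0 M))) ?_
  rintro ⟨x, y, m⟩ ⟨hy, hm, heq⟩
  have hmM := hM x y m hy heq
  have hbox : x.natAbs < 2 ^ V ∧ y.natAbs < 2 ^ V := by
    rcases eq_or_lt_of_le hm with h2 | h3
    · obtain rfl : m = 2 := h2.symm
      obtain ⟨hx', hy'⟩ :=
        BakerExplicit.Baker1969.hyperelliptic_effective le_rfl hk hinj hα hα' hb hbk heq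
      have hle := Nat.pow_le_pow_right two_pos (show _ ≤ V from Nat.le_add_right _ _)
      exact ⟨hx'.trans_le hle, hy'.trans_le hle⟩
    · obtain ⟨hx', hy'⟩ := BakerExplicit.Baker1969.superelliptic_effective le_rfl hk
        (hinj.comp (Fin.castSucc_injective 2)) (fun i => hα i.castSucc) (fun i => hα' i.castSucc)
        h3 hb hbk heq
      have hle := Nat.pow_le_pow_right two_pos (show _ ≤ V from
        (Finset.single_le_sum (f := fun i => BakerExplicit.Superelliptic.powerBound f.natDegree k i)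
          (fun _ _ => Nat.zero_le _) (Finset.mem_range.2 (Nat.lt_succ_of_le hmM))).trans
          (Nat.le_add_left _ _))
      exact ⟨hx'.trans_le hle, hy'.trans_le hle⟩
  obtain ⟨hx', hy'⟩ := hbox
  have hc : ((2 ^ V : ℕ) : ℤ) = 2 ^ V := by push_cast; rfl
  refine Set.mk_mem_prod ⟨?_, ?_⟩ (Set.mk_mem_prod ⟨?_, ?_⟩ ⟨Nat.zero_le _, hmM⟩) <;> omega

/-- **Separable `f` of degree at least three.** -/
theorem separable_solutions_finite {f : ℤ[X]} (hn : 3 ≤ f.natDegree)
    (hsep : (f.map (Int.castRingHom ℚ)).Separable) {b : ℤ} (hb : b ≠ 0) :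
    {p : ℤ × ℤ × ℕ | 2 ≤ |p.2.1| ∧ 2 ≤ p.2.2 ∧ b * p.2.1 ^ p.2.2 = f.eval p.1}.Finite := by
  obtain ⟨α, hinj, hα, hα'⟩ := BakerExplicit.Superelliptic.exists_simple_roots hn hsep
  exact solutions_finite hinj hα hα' hb

end FA.SchinzelTijdeman

end
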