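import Fermat.Agent.SchinzelTijdeman.SUnits
import Mathlib.Algebra.Polynomial.Div

/-!
# The quotient of `z - θ₀` and `z - θ₁` at two roots

If `B y ^ m = g (z)` then a fixed power of `(z - θ₀) / (z - θ₁)` is a product of fixed numbers
with exponents below `m`, times an `m`-th power. The roots need not be simple.
-/

set_option autoImplicit false
set_option linter.unusedSectionVars false

noncomputable section

namespace FA.SchinzelTijdeman

open Finset Polynomial NumberField UniqueFactorizationMonoid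

variable {K : Type*} [Field K] [NumberField K]

/-- The multiplicities of a factor are divisible by `m` outside `B F`. -/
theorem dvd_count_of_congr {β γ B F y : 𝓞 K} {m : ℕ} (hβ : β ≠ 0) (hγ : γ ≠ 0) (hB : B ≠ 0)
    (hy : y ≠ 0) (heq : β * γ = B * y ^ m)
    (hmod : ∀ P : Ideal (𝓞 K), P.IsPrime → β ∈ P → γ - F ∈ P) {P : Ideal (𝓞 K)}
    (hP : P ∈ normalizedFactors (Ideal.span {β})) (hE : B * F ∉ P) :
    m ∣ (normalizedFactors (Ideal.span {β})).count P := by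
  classical
  have hβP : β ∈ P := Ideal.dvd_span_singleton.1 (dvd_of_mem_normalizedFactors hP)
  have hBP : B ∉ P := fun h => hE (P.mul_mem_right _ h)
  have hFP : F ∉ P := fun h => hE (P.mul_mem_left _ h)
  have hγP : γ ∉ P := fun h => hFP (by
    simpa using P.sub_mem h (hmod P (Ideal.isPrime_of_prime
      (prime_of_normalized_factor P hP)) hβP))
  have h0 : ∀ {z : 𝓞 K}, z ∉ P → (normalizedFactors (Ideal.span {z})).count P = 0 := fun hz =>
    Multiset.count_eq_zero.2 fun hmem => hz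
      (Ideal.dvd_span_singleton.1 (dvd_of_mem_normalizedFactors hmem))
  have hne : ∀ {z : 𝓞 K}, z ≠ 0 → Ideal.span {z} ≠ 0 := fun hz h => hz (by
    rwa [Ideal.zero_eq_bot, Ideal.span_singleton_eq_bot] at h)
  have h1 := congrArg (fun z : 𝓞 K => (normalizedFactors (Ideal.span {z})).count P) heq
  rw [← Ideal.span_singleton_mul_span_singleton, ← Ideal.span_singleton_mul_span_singleton,
    ← Ideal.span_singleton_pow, normalizedFactors_mul (hne hβ) (hne hγ),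
    normalizedFactors_mul (hne hB) (pow_ne_zero _ (hne hy)), normalizedFactors_pow,
    Multiset.count_add, Multiset.count_add, Multiset.count_nsmul, h0 hγP, h0 hBP, zero_add,
    add_zero] at h1
  exact ⟨_, h1⟩

/-- At a root `θ` of multiplicity `e`, the number `(z - θ) ^ e` is almost an `m`-th power. -/
theorem exists_root_power {g : ℤ[X]} (hg : g ≠ 0) {θ : 𝓞 K} (hθ : aeval θ g = 0) {B : ℤ}
    (hB : B ≠ 0) :
    ∃ (e : ℕ) (F : 𝓞 K), 0 < e ∧ F ≠ 0 ∧ ∀ (z y : ℤ) (m : ℕ), y ≠ 0 → B * y ^ m = g.eval z →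
      (z : 𝓞 K) - θ ≠ 0 ∧
        ∀ P : Ideal (𝓞 K), P ∈ normalizedFactors (Ideal.span {((z : 𝓞 K) - θ) ^ e}) → F ∉ P →
          m ∣ (normalizedFactors (Ideal.span {((z : 𝓞 K) - θ) ^ e})).count P := by
  set G := g.map (algebraMap ℤ (𝓞 K)) with hG
  have hG0 : G ≠ 0 :=
    (Polynomial.map_ne_zero_iff (FaithfulSMul.algebraMap_injective ℤ (𝓞 K))).2 hg
  have hroot : G.IsRoot θ := by rw [IsRoot, hG, eval_map, ← aeval_def, hθ]
  obtain ⟨q, hq, hqθ⟩ := exists_eq_pow_rootMultiplicity_mul_and_not_dvd G hG0 θ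
  set e := G.rootMultiplicity θ
  have hF : q.eval θ ≠ 0 := fun h => hqθ (dvd_iff_isRoot.2 h)
  have hB' : (B : 𝓞 K) ≠ 0 := Int.cast_ne_zero.2 hB
  refine ⟨e, (B : 𝓞 K) * q.eval θ, (rootMultiplicity_pos hG0).2 hroot, mul_ne_zero hB' hF,
    fun z y m hy heq => ?_⟩
  have hy' : (y : 𝓞 K) ≠ 0 := Int.cast_ne_zero.2 hy
  have hprod : ((z : 𝓞 K) - θ) ^ e * q.eval (z : 𝓞 K) = (B : 𝓞 K) * (y : 𝓞 K) ^ m := by
    have h := congrArg (eval (z : 𝓞 K)) hq
    rw [eval_mul, eval_pow, eval_sub, eval_X, eval_C, hG, eval_map,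
      show (z : 𝓞 K) = algebraMap ℤ (𝓞 K) z from (eq_intCast _ z).symm, eval₂_at_apply,
      ← heq] at h
    simp only [eq_intCast] at h
    rw [← h]
    push_cast
    rfl
  have hne := mul_ne_zero_iff.1 (hprod ▸ mul_ne_zero hB' (pow_ne_zero m hy') :
    ((z : 𝓞 K) - θ) ^ e * q.eval (z : 𝓞 K) ≠ 0)
  have hz : (z : 𝓞 K) - θ ≠ 0 := fun h => hne.1 (by
    rw [h, zero_pow ((rootMultiplicity_pos hG0).2 hroot).ne'])
  refine ⟨hz, fun P hP hE => dvd_count_of_congr hne.1 hne.2 hB' hy' hprod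
    (fun Q hQ hβ => ?_) hP hE⟩
  exact Q.mem_of_dvd (sub_dvd_eval_sub (z : 𝓞 K) θ q) (hQ.mem_of_pow_mem e hβ)

/-- **The quotient is almost an `m`-th power.** -/
theorem exists_quotient_generators {g : ℤ[X]} (hg : g ≠ 0) {θ₀ θ₁ : 𝓞 K}
    (h₀ : aeval θ₀ g = 0) (h₁ : aeval θ₁ g = 0) {B : ℤ} (hB : B ≠ 0) :
    ∃ (E s : ℕ) (G : Fin s → Kˣ), 0 < E ∧ ∀ (z y : ℤ) (m : ℕ), 1 ≤ m → y ≠ 0 →
      B * y ^ m = g.eval z → (z : K) - θ₀ ≠ 0 ∧ (z : K) - θ₁ ≠ 0 ∧
        ∃ (r : Fin s → ℕ) (η : Kˣ), (∀ i, r i < m) ∧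
          (((z : K) - θ₀) / ((z : K) - θ₁)) ^ E =
            (∏ i, (G i : K) ^ r i) * (η : K) ^ m := by
  classical
  obtain ⟨e₀, F₀, he₀, hF₀, H₀⟩ := exists_root_power hg h₀ hB
  obtain ⟨e₁, F₁, he₁, hF₁, H₁⟩ := exists_root_power hg h₁ hB
  obtain ⟨s, G, hG⟩ := exists_generators (mul_ne_zero hF₀ hF₁)
  refine ⟨e₀ * e₁ * classNumber K, s, G,
    Nat.mul_pos (Nat.mul_pos he₀ he₁) (Fintype.card_pos : 0 < classNumber K),
    fun z y m hm hy heq => ?_⟩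
  obtain ⟨hz₀, hd₀⟩ := H₀ z y m hy heq
  obtain ⟨hz₁, hd₁⟩ := H₁ z y m hy heq
  have key : ∀ {θ : 𝓞 K} {e e' : ℕ} {F F' : 𝓞 K}, e * e' = e₀ * e₁ → F * F' = F₀ * F₁ →
      ∀ hz : (z : 𝓞 K) - θ ≠ 0,
      (∀ P : Ideal (𝓞 K), P ∈ normalizedFactors (Ideal.span {((z : 𝓞 K) - θ) ^ e}) → F ∉ P →
        m ∣ (normalizedFactors (Ideal.span {((z : 𝓞 K) - θ) ^ e})).count P) →
      ∃ (k : Fin s → ℤ) (ξ : Kˣ),
        asUnit _ hz ^ (e₀ * e₁ * classNumber K) = (∏ i, G i ^ k i) * ξ ^ m := by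
    intro θ e e' F F' hee hFF hz hd
    obtain ⟨k, ξ, hk⟩ := hG (((z : 𝓞 K) - θ) ^ (e₀ * e₁)) (pow_ne_zero _ hz) m hm
      fun P hP hE => by
        rw [← hee, pow_mul, ← Ideal.span_singleton_pow, normalizedFactors_pow] at hP ⊢
        rw [Multiset.count_nsmul]
        refine Dvd.dvd.mul_left (hd P (Multiset.mem_of_mem_nsmul hP) fun h => hE ?_) _
        rw [← hFF]
        exact P.mul_mem_right _ h
    refine ⟨k, ξ, ?_⟩
    rw [← hk, pow_mul]
    exact congrArg (· ^ classNumber K) (Units.ext (map_pow (algebraMap (𝓞 K) K) _ _).symm)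
  obtain ⟨k₀, ξ₀, hk₀⟩ := key rfl rfl hz₀ hd₀
  obtain ⟨k₁, ξ₁, hk₁⟩ := key (mul_comm e₁ e₀) (mul_comm F₁ F₀) hz₁ hd₁
  obtain ⟨r, η, hr, hrη⟩ := reduce_exponents G (fun i => k₀ i - k₁ i) (ξ₀ / ξ₁) hm
  refine ⟨fun h => hz₀ ?_, fun h => hz₁ ?_, r, η, hr, ?_⟩
  · exact RingOfIntegers.coe_injective (by rw [map_sub, map_intCast, h, map_zero])
  · exact RingOfIntegers.coe_injective (by rw [map_sub, map_intCast, h, map_zero])
  have e : (asUnit _ hz₀ / asUnit _ hz₁) ^ (e₀ * e₁ * classNumber K) =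
      (∏ i, G i ^ r i) * η ^ m := by
    rw [← hrη, div_pow, hk₀, hk₁, div_pow, mul_div_mul_comm, ← Finset.prod_div_distrib]
    refine congrArg (· * _) (Finset.prod_congr rfl fun i _ => ?_)
    rw [zpow_sub, div_eq_mul_inv]
  simpa [asUnit, Units.val_div_eq_div_val] using congrArg Units.val e

end FA.SchinzelTijdeman

end
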