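import Fermat.Agent.BakerExplicit.PowerDecomposition
import Mathlib.NumberTheory.NumberField.Units.DirichletTheorem
import Mathlib.NumberTheory.NumberField.ClassNumber
import Mathlib.Algebra.Group.Subgroup.Finsupp

/-!
# Numbers whose multiplicities are divisible by `m` outside a finite set of primes

Their class-number power is an `m`-th power times a product of finitely many fixed numbers.
-/

set_option autoImplicit false
set_option linter.unusedSectionVars false

noncomputable section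

namespace FA.SchinzelTijdeman

open NumberField UniqueFactorizationMonoid nonZeroDivisors
open BakerExplicit.PowerDecomposition (exists_ideal_decomposition)

variable {K : Type*} [Field K] [NumberField K]

/-- The class number kills every class. -/
theorem isPrincipal_pow_classNumber {I : Ideal (𝓞 K)} (hI : I ≠ ⊥) :
    ∃ a : 𝓞 K, I ^ classNumber K = Ideal.span {a} := by
  have hmem : I ∈ (Ideal (𝓞 K))⁰ := mem_nonZeroDivisors_of_ne_zero hI
  have h1 : ClassGroup.mk0 (⟨I, hmem⟩ ^ classNumber K) = 1 := by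
    rw [map_pow, classNumber, pow_card_eq_one]
  have h2 : (I ^ classNumber K).IsPrincipal :=
    (ClassGroup.mk0_eq_one_iff (pow_mem hmem _)).1 h1
  exact ⟨_, h2.span_singleton_generator.symm⟩

/-- The image of the units. -/
def unitHom : (𝓞 K)ˣ →* Kˣ := Units.map (algebraMap (𝓞 K) K).toMonoidHom

/-- A nonzero integer as a unit of the field. -/
def asUnit (a : 𝓞 K) (ha : a ≠ 0) : Kˣ :=
  Units.mk0 (a : K) (RingOfIntegers.coe_ne_zero_iff.2 ha)

/-- Equal ideals differ by a unit. -/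
theorem asUnit_eq_mul {a b : 𝓞 K} (ha : a ≠ 0) (hb : b ≠ 0)
    (h : Ideal.span {a} = Ideal.span {b}) :
    ∃ u : (𝓞 K)ˣ, asUnit a ha = unitHom u * asUnit b hb := by
  obtain ⟨u, hu⟩ := (Ideal.span_singleton_eq_span_singleton.1 h)
  refine ⟨u⁻¹, Units.ext ?_⟩
  show (a : K) = ((((u⁻¹ : (𝓞 K)ˣ) : 𝓞 K)) : K) * (b : K)
  have e : a = ((u⁻¹ : (𝓞 K)ˣ) : 𝓞 K) * b := by
    rw [← hu, mul_comm a, ← mul_assoc, Units.inv_mul, one_mul]
  calc (a : K) = ((((u⁻¹ : (𝓞 K)ˣ) : 𝓞 K) * b : 𝓞 K) : K) := by rw [← e]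
    _ = _ := map_mul (algebraMap (𝓞 K) K) _ _

/-- **The decomposition.** -/
theorem exists_generators {E : 𝓞 K} (hE : E ≠ 0) :
    ∃ (s : ℕ) (g : Fin s → Kˣ), ∀ (u : 𝓞 K) (hu : u ≠ 0) (m : ℕ), 1 ≤ m →
      (∀ P : Ideal (𝓞 K), P ∈ normalizedFactors (Ideal.span {u}) → E ∉ P →
        m ∣ (normalizedFactors (Ideal.span {u})).count P) →
      ∃ (k : Fin s → ℤ) (ξ : Kˣ), asUnit u hu ^ classNumber K = (∏ i, g i ^ k i) * ξ ^ m := by
  classical
  have hEI : Ideal.span {E} ≠ ⊥ := by simpa using hE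
  set S := (normalizedFactors (Ideal.span {E})).toFinset with hSdef
  have hS0 : ∀ P ∈ S, P ≠ ⊥ := fun P hP =>
    (prime_of_normalized_factor P (Multiset.mem_toFinset.1 hP)).ne_zero
  choose π hπ using fun P : S => isPrincipal_pow_classNumber (hS0 P P.2)
  have hπ0 : ∀ P, π P ≠ 0 := fun P h => pow_ne_zero (classNumber K) (hS0 P P.2) (by
    rw [hπ P, h]; simp)
  obtain ⟨T, hT⟩ := (Group.fg_iff_monoid_fg.2
    (inferInstance : Monoid.FG (𝓞 K)ˣ)).out
  let G : Set Kˣ := unitHom '' (T : Set (𝓞 K)ˣ) ∪ Set.range fun P => asUnit (π P) (hπ0 P)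
  have : Finite G := ((T.finite_toSet.image _).union (Set.finite_range _)).to_subtype
  have := Fintype.ofFinite G
  refine ⟨Fintype.card G, fun i => ((Fintype.equivFin G).symm i : Kˣ), fun u hu m hm h => ?_⟩
  set Γ := Subgroup.closure (Set.range fun i => ((Fintype.equivFin G).symm i : Kˣ)) with hΓ
  have hG : ∀ x ∈ G, x ∈ Γ := fun x hx =>
    Subgroup.subset_closure ⟨Fintype.equivFin G ⟨x, hx⟩, by simp⟩
  have hunit : ∀ v : (𝓞 K)ˣ, unitHom v ∈ Γ := fun v => by
    have hv : v ∈ Subgroup.closure (T : Set (𝓞 K)ˣ) := by rw [hT]; exact Subgroup.mem_top v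
    exact ((Subgroup.closure_le (K := Γ.comap (unitHom (K := K)))).2
      (fun t ht => hG _ (Or.inl ⟨t, ht, rfl⟩))) hv
  obtain ⟨A, B, hAB, hA⟩ :=
    exists_ideal_decomposition (by simpa using hu) hm h
  have hI : Ideal.span {u} ≠ ⊥ := by simpa using hu
  have hA0 : A ≠ ⊥ := fun h => hI (by rw [hAB, h, ← Ideal.zero_eq_bot, zero_mul])
  have hB0 : B ≠ ⊥ := fun h => hI (by
    rw [hAB, h, ← Ideal.zero_eq_bot, zero_pow (by omega), mul_zero])
  have key : ∀ s : Multiset (Ideal (𝓞 K)), (∀ P ∈ s, P ∈ S) →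
      ∃ (a : 𝓞 K) (ha : a ≠ 0), s.prod ^ classNumber K = Ideal.span {a} ∧ asUnit a ha ∈ Γ := by
    intro s
    induction s using Multiset.induction_on with
    | empty =>
      refine fun _ => ⟨1, one_ne_zero, by simp [Ideal.one_eq_top, Ideal.top_pow], ?_⟩
      rw [show asUnit (1 : 𝓞 K) one_ne_zero = 1 from Units.ext (map_one _)]
      exact one_mem _
    | cons P s ih =>
      intro hs
      obtain ⟨a, ha, hsa, haΓ⟩ := ih fun Q hQ => hs Q (Multiset.mem_cons_of_mem hQ)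
      set Q : S := ⟨P, hs P (Multiset.mem_cons_self P s)⟩
      refine ⟨π Q * a, mul_ne_zero (hπ0 Q) ha, ?_, ?_⟩
      · rw [Multiset.prod_cons, mul_pow, hsa, ← Ideal.span_singleton_mul_span_singleton, ← hπ Q]
      · rw [show asUnit (π Q * a) (mul_ne_zero (hπ0 Q) ha) = asUnit (π Q) (hπ0 Q) * asUnit a ha from
          Units.ext (map_mul _ _ _)]
        exact mul_mem (hG _ (Or.inr ⟨Q, rfl⟩)) haΓ
  obtain ⟨a, ha, hsa, haΓ⟩ := key (normalizedFactors A) fun P hP => by
    have hpr := prime_of_normalized_factor P hP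
    have hdE : P ∣ Ideal.span {E} :=
      hpr.dvd_of_dvd_pow ((dvd_of_mem_normalizedFactors hP).trans hA)
    obtain ⟨Q, hQ, hPQ⟩ := exists_mem_normalizedFactors_of_dvd hEI hpr.irreducible hdE
    exact Multiset.mem_toFinset.2 (associated_iff_eq.1 hPQ ▸ hQ)
  rw [Ideal.prod_normalizedFactors_eq_self hA0] at hsa
  obtain ⟨c, hc⟩ := isPrincipal_pow_classNumber hB0
  have hc0 : c ≠ 0 := fun h => pow_ne_zero (classNumber K) hB0 (by rw [hc, h]; simp)
  obtain ⟨v, hv⟩ := asUnit_eq_mul (pow_ne_zero (classNumber K) hu)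
    (mul_ne_zero ha (pow_ne_zero m hc0)) (by
      rw [← Ideal.span_singleton_pow, hAB, mul_pow, hsa, ← pow_mul, mul_comm m, pow_mul, hc,
        Ideal.span_singleton_pow, Ideal.span_singleton_mul_span_singleton])
  obtain ⟨k, hk⟩ := Subgroup.mem_closure_range_iff_of_fintype.1 (mul_mem (hunit v) haΓ)
  refine ⟨k, asUnit c hc0, ?_⟩
  rw [← hk, mul_assoc]
  refine Eq.trans ?_ (hv.trans (congrArg _ ?_)) <;> refine Units.ext ?_
  · simp [asUnit]
  · simp [asUnit]

/-- The exponents may be reduced modulo `m`. -/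
theorem reduce_exponents {s : ℕ} (g : Fin s → Kˣ) (k : Fin s → ℤ) (ξ : Kˣ) {m : ℕ} (hm : 1 ≤ m) :
    ∃ (r : Fin s → ℕ) (η : Kˣ), (∀ i, r i < m) ∧
      (∏ i, g i ^ k i) * ξ ^ m = (∏ i, g i ^ r i) * η ^ m := by
  have hm0 : (0 : ℤ) < m := by exact_mod_cast hm
  refine ⟨fun i => (k i % m).toNat, (∏ i, g i ^ (k i / m)) * ξ, fun i => ?_, ?_⟩
  · have h1 := Int.emod_nonneg (k i) hm0.ne'
    have h2 := Int.emod_lt_of_pos (k i) hm0
    show (k i % ↑m).toNat < m
    omega
  · rw [mul_pow, ← mul_assoc, ← Finset.prod_pow, ← Finset.prod_mul_distrib]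
    congr 1
    refine Finset.prod_congr rfl fun i _ => ?_
    rw [← zpow_natCast (g i) _, ← zpow_natCast (g i ^ (k i / m)) m, ← zpow_mul, ← zpow_add,
      Int.toNat_of_nonneg (Int.emod_nonneg _ hm0.ne'), mul_comm (k i / m), Int.emod_add_mul_ediv]

end FA.SchinzelTijdeman

end
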